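/-
Case I of Fermat's Last Theorem for the exponents 5, 7, 11, 13 via Sophie Germain's theorem
(auxiliary primes 11, 29, 23, 53).  Elementary: Mathlib only, no cyclotomic fields.
-/
import Mathlib

set_option autoImplicit false

namespace Fermat.Agent.FLTCaseI

open Finset

/-- The cofactor `(y ^ p + z ^ p) / (y + z)` (for odd `p`). -/
def cof (p : ℕ) (y z : ℤ) : ℤ := ∑ i ∈ range p, y ^ i * (-z) ^ (p - 1 - i)

lemma cof_mul (p : ℕ) (hp : Odd p) (y z : ℤ) : cof p y z * (y + z) = y ^ p + z ^ p := by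
  have := Commute.geom_sum₂_mul (Commute.all y (-z)) p
  rw [sub_neg_eq_add, hp.neg_pow, sub_neg_eq_add] at this
  exact this

lemma dvd_cof_sub (p : ℕ) (y z : ℤ) : (y + z) ∣ cof p y z - (p : ℤ) * y ^ (p - 1) := by
  have h1 : (p : ℤ) * y ^ (p - 1) = ∑ i ∈ range p, y ^ i * y ^ (p - 1 - i) := by
    rw [Finset.sum_congr rfl (g := fun _ => y ^ (p - 1))]
    · simp
    · intro i hi
      rw [← pow_add]
      congr 1
      have := Finset.mem_range.mp hi
      omega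
  rw [h1, cof, ← Finset.sum_sub_distrib]
  refine Finset.dvd_sum fun i _ => ?_
  rw [← mul_sub]
  refine Dvd.dvd.mul_left ?_ _
  have h2 : (-z - y) ∣ (-z) ^ (p - 1 - i) - y ^ (p - 1 - i) := sub_dvd_pow_sub_pow _ _ _
  have h3 : (y + z) ∣ (-z - y) := ⟨-1, by ring⟩
  exact h3.trans h2

lemma isCoprime_add_cof (p : ℕ) [hp : Fact p.Prime] (y z : ℤ) (hyz : IsCoprime y z)
    (hpyz : ¬ (p : ℤ) ∣ y + z) : IsCoprime (y + z) (cof p y z) := by
  have hpZ : Prime (p : ℤ) := Nat.prime_iff_prime_int.mp hp.out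
  refine isCoprime_of_prime_dvd ?_ ?_
  · rintro ⟨h1, -⟩
    exact hpyz (h1 ▸ dvd_zero _)
  · intro r hr h1 h2
    have h3 : r ∣ (p : ℤ) * y ^ (p - 1) := by
      have := (h1.trans (dvd_cof_sub p y z))
      have h4 := dvd_sub h2 this
      simpa using h4
    rcases hr.dvd_or_dvd h3 with h4 | h4
    · have hass : Associated r (p : ℤ) := (hr.dvd_prime_iff_associated hpZ).mp h4
      exact hpyz (hass.dvd_iff_dvd_left.mp h1)
    · have h5 : r ∣ y := hr.dvd_of_dvd_pow h4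
      have h6 : r ∣ z := by
        have := dvd_sub h1 h5
        simpa using this
      exact hr.not_isUnit (hyz.isUnit_of_dvd' h5 h6)

lemma exists_pow (p : ℕ) [hp : Fact p.Prime] (hodd : Odd p) (x y z : ℤ) (hyz : IsCoprime y z)
    (h : x ^ p + y ^ p + z ^ p = 0) (hpx : ¬ (p : ℤ) ∣ x) :
    ∃ a α : ℤ, y + z = a ^ p ∧ cof p y z = α ^ p := by
  have hpZ : Prime (p : ℤ) := Nat.prime_iff_prime_int.mp hp.out
  have hmul : (y + z) * cof p y z = (-x) ^ p := by
    rw [mul_comm, cof_mul p hodd, hodd.neg_pow]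
    linear_combination h
  have hpyz : ¬ (p : ℤ) ∣ y + z := by
    intro hdvd
    apply hpx
    have h1 : (p : ℤ) ∣ (-x) ^ p := hmul ▸ Dvd.dvd.mul_right hdvd _
    have := hpZ.dvd_of_dvd_pow h1
    simpa using this
  have hcop := isCoprime_add_cof p y z hyz hpyz
  obtain ⟨⟨a, ha⟩, ⟨α, hα⟩⟩ := Int.eq_pow_of_mul_eq_pow_odd hcop hodd hmul
  exact ⟨a, α, ha, hα⟩

lemma cof_cast (q p : ℕ) (y z : ℤ) (h : ((y : ZMod q) + (z : ZMod q) = 0)) :
    ((cof p y z : ℤ) : ZMod q) = (p : ZMod q) * (y : ZMod q) ^ (p - 1) := by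
  have hz : -(z : ZMod q) = y := by linear_combination -h
  rw [cof]
  push_cast
  rw [hz, Finset.sum_congr rfl (g := fun _ => (y : ZMod q) ^ (p - 1))]
  · simp
  · intro i hi
    rw [← pow_add]
    congr 1
    have := Finset.mem_range.mp hi
    omega

lemma not_both_dvd (q : ℕ) [hq : Fact q.Prime] {x y : ℤ} (hxy : IsCoprime x y)
    (hx : (x : ZMod q) = 0) (hy : (y : ZMod q) = 0) : False := by
  have hqZ : Prime (q : ℤ) := Nat.prime_iff_prime_int.mp hq.out
  have h1 := (ZMod.intCast_zmod_eq_zero_iff_dvd x q).mp hx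
  have h2 := (ZMod.intCast_zmod_eq_zero_iff_dvd y q).mp hy
  exact hqZ.not_isUnit (hxy.isUnit_of_dvd' h1 h2)

/-- the key step: the auxiliary prime `q` cannot divide `x` -/
lemma key (p q : ℕ) [hp : Fact p.Prime] [hq : Fact q.Prime] (hodd : Odd p)
    (h1 : ∀ u v w : ZMod q, u ^ p + v ^ p + w ^ p = 0 → u = 0 ∨ v = 0 ∨ w = 0)
    (h2 : ∀ u : ZMod q, u ^ p ≠ (p : ZMod q))
    (x y z : ℤ) (hxy : IsCoprime x y) (hyz : IsCoprime y z) (hxz : IsCoprime x z)
    (h : x ^ p + y ^ p + z ^ p = 0)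
    (hpx : ¬ (p : ℤ) ∣ x) (hpy : ¬ (p : ℤ) ∣ y) (hpz : ¬ (p : ℤ) ∣ z)
    (hqx : (x : ZMod q) = 0) : False := by
  obtain ⟨a, α, ha, hα⟩ := exists_pow p hodd x y z hyz h hpx
  obtain ⟨b, -, hb, -⟩ := exists_pow p hodd y z x hxz.symm (by linear_combination h) hpy
  obtain ⟨c, -, hc, -⟩ := exists_pow p hodd z x y hxy (by linear_combination h) hpz
  have hA : (y : ZMod q) + z = (a : ZMod q) ^ p := by exact_mod_cast congrArg (Int.cast : ℤ → ZMod q) ha
  have hB : (z : ZMod q) + x = (b : ZMod q) ^ p := by exact_mod_cast congrArg (Int.cast : ℤ → ZMod q) hb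
  have hC : (x : ZMod q) + y = (c : ZMod q) ^ p := by exact_mod_cast congrArg (Int.cast : ℤ → ZMod q) hc
  have hAl : ((cof p y z : ℤ) : ZMod q) = (α : ZMod q) ^ p := by
    exact_mod_cast congrArg (Int.cast : ℤ → ZMod q) hα
  have hsum : (b : ZMod q) ^ p + (c : ZMod q) ^ p + (-(a : ZMod q)) ^ p = 0 := by
    rw [hodd.neg_pow, ← hA, ← hB, ← hC, hqx]
    ring
  have hc0 : (c : ZMod q) ≠ 0 := by
    intro hc0
    have hy0 : (y : ZMod q) = 0 := by
      have := hC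
      rw [hc0, zero_pow hp.out.ne_zero, hqx, zero_add] at this
      exact this
    exact not_both_dvd q hxy hqx hy0
  rcases h1 _ _ _ hsum with hb0 | hc0' | ha0
  · have hz0 : (z : ZMod q) = 0 := by
      have := hB
      rw [hb0, zero_pow hp.out.ne_zero, hqx, add_zero] at this
      exact this
    exact not_both_dvd q hxz hqx hz0
  · exact hc0 hc0'
  · have ha0' : (a : ZMod q) = 0 := neg_eq_zero.mp ha0
    have hyz0 : (y : ZMod q) + z = 0 := by rw [hA, ha0', zero_pow hp.out.ne_zero]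
    have hcof := cof_cast q p y z hyz0
    have hy : (y : ZMod q) = (c : ZMod q) ^ p := by rw [← hC, hqx, zero_add]
    rw [hAl, hy] at hcof
    apply h2 ((α : ZMod q) * ((c : ZMod q) ^ (p - 1))⁻¹)
    have hne : (c : ZMod q) ^ (p * (p - 1)) ≠ 0 := pow_ne_zero _ hc0
    rw [mul_pow, inv_pow, hcof, ← pow_mul, ← pow_mul, mul_comm (p - 1) p]
    rw [mul_assoc, mul_inv_cancel₀ hne, mul_one]

/-- **Sophie Germain's theorem.** -/
theorem sophie_germain (p q : ℕ) [hp : Fact p.Prime] [hq : Fact q.Prime] (hodd : Odd p)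
    (h1 : ∀ u v w : ZMod q, u ^ p + v ^ p + w ^ p = 0 → u = 0 ∨ v = 0 ∨ w = 0)
    (h2 : ∀ u : ZMod q, u ^ p ≠ (p : ZMod q))
    (x y z : ℤ) (hxy : IsCoprime x y) (hyz : IsCoprime y z) (hxz : IsCoprime x z)
    (h : x ^ p + y ^ p + z ^ p = 0) (hpxyz : ¬ (p : ℤ) ∣ x * y * z) : False := by
  have hpx : ¬ (p : ℤ) ∣ x := fun hd => hpxyz ((hd.mul_right y).mul_right z)
  have hpy : ¬ (p : ℤ) ∣ y := fun hd => hpxyz ((hd.mul_left x).mul_right z)
  have hpz : ¬ (p : ℤ) ∣ z := fun hd => hpxyz (hd.mul_left (x * y))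
  have hcast : (x : ZMod q) ^ p + (y : ZMod q) ^ p + (z : ZMod q) ^ p = 0 := by
    exact_mod_cast congrArg (Int.cast : ℤ → ZMod q) h
  rcases h1 _ _ _ hcast with hx | hy | hz
  · exact key p q hodd h1 h2 x y z hxy hyz hxz h hpx hpy hpz hx
  · exact key p q hodd h1 h2 y z x hyz hxz.symm hxy.symm (by linear_combination h) hpy hpz hpx hy
  · exact key p q hodd h1 h2 z x y hxz.symm hxy hyz.symm (by linear_combination h) hpz hpx hpy hz

/-! ### The finite checks -/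

lemma check_5_11_pow : ∀ u : ZMod 11, u ^ 5 = 0 ∨ u ^ 5 = 1 ∨ u ^ 5 = 10 := by decide
lemma check_7_29_pow : ∀ u : ZMod 29, u ^ 7 = 0 ∨ u ^ 7 = 1 ∨ u ^ 7 = 28 ∨ u ^ 7 = 12 ∨ u ^ 7 = 17 := by
  decide
lemma check_11_23_pow : ∀ u : ZMod 23, u ^ 11 = 0 ∨ u ^ 11 = 1 ∨ u ^ 11 = 22 := by decide
lemma check_13_53_pow :
    ∀ u : ZMod 53, u ^ 13 = 0 ∨ u ^ 13 = 1 ∨ u ^ 13 = 52 ∨ u ^ 13 = 23 ∨ u ^ 13 = 30 := by
  decide

lemma cond1_of_list (p q : ℕ) [hp : Fact p.Prime] [hq : Fact q.Prime] (L : List (ZMod q))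
    (hL : ∀ u : ZMod q, u ^ p = 0 ∨ u ^ p ∈ L)
    (hsum : ∀ a ∈ L, ∀ b ∈ L, ∀ c ∈ L, a + b + c ≠ 0) :
    ∀ u v w : ZMod q, u ^ p + v ^ p + w ^ p = 0 → u = 0 ∨ v = 0 ∨ w = 0 := by
  intro u v w h
  rcases hL u with hu | hu
  · exact Or.inl (pow_eq_zero_iff hp.out.ne_zero |>.mp hu)
  rcases hL v with hv | hv
  · exact Or.inr (Or.inl (pow_eq_zero_iff hp.out.ne_zero |>.mp hv))
  rcases hL w with hw | hw
  · exact Or.inr (Or.inr (pow_eq_zero_iff hp.out.ne_zero |>.mp hw))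
  exact absurd h (hsum _ hu _ hv _ hw)

lemma cond2_of_list (p q : ℕ) (L : List (ZMod q))
    (hL : ∀ u : ZMod q, u ^ p = 0 ∨ u ^ p ∈ L) (h0 : (p : ZMod q) ≠ 0) (hp : (p : ZMod q) ∉ L) :
    ∀ u : ZMod q, u ^ p ≠ (p : ZMod q) := by
  intro u hu
  rcases hL u with h | h
  · exact h0 (hu ▸ h)
  · exact hp (hu ▸ h)

theorem fact_prime_5 : Fact (Nat.Prime 5) := ⟨by norm_num⟩
theorem fact_prime_7 : Fact (Nat.Prime 7) := ⟨by norm_num⟩
theorem fact_prime_11 : Fact (Nat.Prime 11) := ⟨by norm_num⟩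
theorem fact_prime_13 : Fact (Nat.Prime 13) := ⟨by norm_num⟩
theorem fact_prime_23 : Fact (Nat.Prime 23) := ⟨by norm_num⟩
theorem fact_prime_29 : Fact (Nat.Prime 29) := ⟨by norm_num⟩
theorem fact_prime_53 : Fact (Nat.Prime 53) := ⟨by norm_num⟩

/-- Case I in the symmetric form, for the four exponents. -/
theorem caseI_symm (p : ℕ) (hp : p = 5 ∨ p = 7 ∨ p = 11 ∨ p = 13) (x y z : ℤ)
    (hxy : IsCoprime x y) (hyz : IsCoprime y z) (hxz : IsCoprime x z)
    (h : x ^ p + y ^ p + z ^ p = 0) (hpxyz : ¬ (p : ℤ) ∣ x * y * z) : False := by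
  rcases hp with rfl | rfl | rfl | rfl
  · have hL : ∀ u : ZMod 11, u ^ 5 = 0 ∨ u ^ 5 ∈ ([1, 10] : List (ZMod 11)) := by
      intro u; rcases check_5_11_pow u with h | h | h <;> simp [h]
    exact @sophie_germain 5 11 fact_prime_5 fact_prime_11 (by decide)
      (@cond1_of_list 5 11 fact_prime_5 fact_prime_11 [1, 10] hL (by decide))
      (cond2_of_list 5 11 [1, 10] hL (by decide) (by decide)) x y z hxy hyz hxz h hpxyz
  · have hL : ∀ u : ZMod 29, u ^ 7 = 0 ∨ u ^ 7 ∈ ([1, 28, 12, 17] : List (ZMod 29)) := by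
      intro u; rcases check_7_29_pow u with h | h | h | h | h <;> simp [h]
    exact @sophie_germain 7 29 fact_prime_7 fact_prime_29 (by decide)
      (@cond1_of_list 7 29 fact_prime_7 fact_prime_29 [1, 28, 12, 17] hL (by decide))
      (cond2_of_list 7 29 [1, 28, 12, 17] hL (by decide) (by decide)) x y z hxy hyz hxz h hpxyz
  · have hL : ∀ u : ZMod 23, u ^ 11 = 0 ∨ u ^ 11 ∈ ([1, 22] : List (ZMod 23)) := by
      intro u; rcases check_11_23_pow u with h | h | h <;> simp [h]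
    exact @sophie_germain 11 23 fact_prime_11 fact_prime_23 (by decide)
      (@cond1_of_list 11 23 fact_prime_11 fact_prime_23 [1, 22] hL (by decide))
      (cond2_of_list 11 23 [1, 22] hL (by decide) (by decide)) x y z hxy hyz hxz h hpxyz
  · have hL : ∀ u : ZMod 53, u ^ 13 = 0 ∨ u ^ 13 ∈ ([1, 52, 23, 30] : List (ZMod 53)) := by
      intro u; rcases check_13_53_pow u with h | h | h | h | h <;> simp [h]
    exact @sophie_germain 13 53 fact_prime_13 fact_prime_53 (by decide)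
      (@cond1_of_list 13 53 fact_prime_13 fact_prime_53 [1, 52, 23, 30] hL (by decide +kernel))
      (cond2_of_list 13 53 [1, 52, 23, 30] hL (by decide) (by decide)) x y z hxy hyz hxz h hpxyz

/-- **Case I of FLT for `p = 5, 7, 11, 13`**: no solutions with `p ∤ abc`. -/
theorem caseI (p : ℕ) (hp : p = 5 ∨ p = 7 ∨ p = 11 ∨ p = 13) (a b c : ℤ) (hab : IsCoprime a b)
    (h : a ^ p + b ^ p = c ^ p) (hpabc : ¬ (p : ℤ) ∣ a * b * c) : False := by
  have hodd : Odd p := by rcases hp with rfl | rfl | rfl | rfl <;> decide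
  have hp0 : 0 < p := by rcases hp with rfl | rfl | rfl | rfl <;> decide
  have hac : IsCoprime a c := by
    have h1 : IsCoprime (a ^ p) (b ^ p) := hab.pow
    have h2 : IsCoprime (a ^ p) (c ^ p) := by
      rw [← h, add_comm]
      simpa using h1.add_mul_left_right 1
    exact (IsCoprime.pow_iff hp0 hp0).mp h2
  have hbc : IsCoprime b c := by
    have h1 : IsCoprime (b ^ p) (a ^ p) := hab.symm.pow
    have h2 : IsCoprime (b ^ p) (c ^ p) := by
      rw [← h]
      simpa using h1.add_mul_left_right 1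
    exact (IsCoprime.pow_iff hp0 hp0).mp h2
  refine caseI_symm p hp a b (-c) hab hbc.neg_right hac.neg_right ?_ ?_
  · rw [hodd.neg_pow]; linear_combination h
  · intro hd
    apply hpabc
    have : a * b * -c = -(a * b * c) := by ring
    rw [this] at hd
    exact (dvd_neg).mp hd

end Fermat.Agent.FLTCaseI
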